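/-
S55 interface adapter (helper12): the `p`-primary vanishing of `H¹` for ALL subquotients of
`(G, A)`, not only those below `H₀`.

The seam 31/32 → 33 → 35 (`Adapt77.HcycGlue`, `Adapt77.TowerInputsP`) is stated for layers
below `H₀ = Gal(L/K₀)`, `ζ_p ∈ K₀` (the second inequality needs `μ_p`).  The reciprocity plug
(P3P4) lives over `ℚ ∌ ζ_p`, i.e. needs `Z ≤ G` NOT contained in `H₀`.  Since `H₀ ⊴ G` has index
prime to `p` (`[ℚ(ζ_p):ℚ] ∣ p - 1`), restriction to `Z ⊓ H₀` is injective on `p`-primary classes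
(`InfRes9.eq_zero_of_res_eq_zero_one`), and inflation is injective in degree `1`
(Mathlib `H1InfRes`), so the `p`-primary part of `H¹` vanishes for EVERY subquotient.
-/
import Fermat.Agent.S55.Adapt77.TowerInputsP

set_option autoImplicit false
set_option linter.style.haveILetI false

open CategoryTheory Rep groupCohomology

universe u

namespace Fermat.Agent.S55.Adapt12.AllLayersH1

open Fermat.Agent.S55.SubQuot99 Fermat.Agent.S55.InfRes9
open Fermat.Agent.S55.Adapt77.SubQuotBelow Fermat.Agent.S55.Adapt77.HcycGlue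
open Fermat.Agent.S55.Adapt77.TowerInputsP

variable {k G : Type u} [CommRing k] [Group G] {A : Rep.{u, u, u} k G} {H₀ : Subgroup G} {p : ℕ}

/-- `(S, Res_S Res_Z A)` for `S = H₀ ⊓ Z` (as a subgroup of `Z`) is a subquotient below `H₀`. -/
theorem isSubQuotBelow_res_subgroupOf (Z : Subgroup G) :
    IsSubQuotBelow A H₀ (H₀.subgroupOf Z)
      (Rep.res (H₀.subgroupOf Z).subtype (Rep.res Z.subtype A)) := by
  refine ⟨((SubQuotData.self A).res Z).res (H₀.subgroupOf Z), ?_⟩
  rintro g ⟨h', hh', rfl⟩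
  -- `h' : ((SubQuotData.self A).res Z).H` with `π h' ∈ H₀.subgroupOf Z`
  have h1 : (((SubQuotData.self A).res Z).π h' : G) ∈ H₀ := Subgroup.mem_subgroupOf.1 hh'
  exact h1

section

variable [Fact p.Prime] [Finite G] [H₀.Normal] (hidx : ¬ p ∣ H₀.index)
  (h31 : FirstIneqOut A H₀ p) (h32 : SecondIneqOut A H₀ p)
include hidx h31 h32

/-- **(1)** `p`-primary vanishing of `H¹(Z, A)` for ANY subgroup `Z ≤ G`. -/
theorem pPrimary_H1_res_eq_zero (Z : Subgroup G)
    (x : groupCohomology (Rep.res Z.subtype A) 1) (hx : ∃ n : ℕ, p ^ n • x = 0) : x = 0 := by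
  have hp : p.Prime := Fact.out
  obtain ⟨n, hn⟩ := hx
  have hS : ¬ p ∣ (H₀.subgroupOf Z).index := fun h =>
    hidx (h.trans (Subgroup.relIndex_dvd_index_of_normal (H := H₀) (K := Z)))
  refine eq_zero_of_res_eq_zero_one (Rep.res Z.subtype A) (H₀.subgroupOf Z) hp hS x n hn ?_
  refine ((isSubQuotBelow_res_subgroupOf (A := A) (H₀ := H₀) Z).pPart p
    (hcyc_of_out h31 h32)).1 _ ⟨n, ?_⟩
  rw [← map_nsmul, hn, map_zero]

/-- **(2)** `p`-primary vanishing of `H¹(Q, B)` for ANY subquotient `(Q, B)` of `(G, A)`. -/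
theorem pPrimary_H1_subQuot_eq_zero {Q : Type u} [Group Q] {B : Rep.{u, u, u} k Q}
    (h : IsSubQuot A Q B) (x : groupCohomology B 1) (hx : ∃ n : ℕ, p ^ n • x = 0) : x = 0 := by
  obtain ⟨D⟩ := h
  obtain ⟨n, hn⟩ := hx
  let e := mapIso D.e D.e' D.e'_comp 1
  -- transport to the canonical layer `(D.H ⧸ D.N, (Res A)^{D.N})`
  have hy : p ^ n • e.hom.hom x = 0 := by rw [← map_nsmul, hn, map_zero]
  -- inflate to `H¹(D.H, A)`
  let infl : groupCohomology ((Rep.res D.H.subtype A).quotientToInvariants D.N) 1 ⟶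
      groupCohomology (Rep.res D.H.subtype A) 1 :=
    map (QuotientGroup.mk' D.N) (ofHom <| (Rep.res D.H.subtype A).ρ.quotientToInvariants_lift D.N) 1
  have hmono : Mono infl := by
    show Mono (H1InfRes (Rep.res D.H.subtype A) D.N).f
    infer_instance
  have hinj : Function.Injective infl.hom := (ModuleCat.mono_iff_injective _).1 hmono
  have hz : infl.hom (e.hom.hom x) = 0 := by
    refine pPrimary_H1_res_eq_zero hidx h31 h32 D.H _ ⟨n, ?_⟩
    rw [← map_nsmul, hy, map_zero]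
  have h0 : e.hom.hom x = 0 := hinj (by rw [hz, map_zero])
  have hinj' : Function.Injective e.hom.hom :=
    (ModuleCat.mono_iff_injective _).1 inferInstance
  exact hinj' (by rw [h0, map_zero])

/-- **(3)** the weak `H¹` hypothesis `hH1Z` of `GlobalInv91` (`alpha_trans`,
`exists_fundamental_class_of_inv`, input of `WeakH1.hker_res`) for ANY finite subgroup `Z` of ANY
subquotient `(Γ, C)` of `(G, A)` — no "below `H₀`". -/
theorem exists_coprime_nsmul_cob_subQuot {Γ : Type u} [Group Γ] {C : Rep.{u, u, u} k Γ}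
    (h : IsSubQuot A Γ C) (Z : Subgroup Γ) [Finite Z] :
    ∃ m' : ℕ, Nat.Coprime m' p ∧
      ∀ f : Z → C, (∀ z w : Z, f (z * w) = C.ρ (z : Γ) (f w) + f z) →
        ∃ y : C, ∀ z : Z, m' • f z = C.ρ (z : Γ) y - y :=
  exists_coprime_nsmul_cob C Z p
    (fun x hx => pPrimary_H1_subQuot_eq_zero hidx h31 h32 (h.res Z) x hx)

/-- **(4)** `H¹(N, C) = 0` for every finite `p`-subgroup `N` of ANY subquotient `(Γ, C)` (= the
hypothesis `h1N` of `GlobalInv91` without "below `H₀`"). -/
theorem isZero_H1_res_pGroup_subQuot {Γ : Type u} [Group Γ] {C : Rep.{u, u, u} k Γ}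
    (h : IsSubQuot A Γ C) (N : Subgroup Γ) [Finite N] (hN : IsPGroup p N) :
    Limits.IsZero (groupCohomology (Rep.res N.subtype C) 1) := by
  obtain ⟨j, hj⟩ := IsPGroup.iff_card.1 hN
  haveI : Subsingleton (groupCohomology (Rep.res N.subtype C) 1) := by
    refine ⟨fun a b => ?_⟩
    have ha := pPrimary_H1_subQuot_eq_zero hidx h31 h32 (h.res N) a
      ⟨j, by rw [← hj]; exact card_smul_eq_zero_one _ a⟩
    have hb := pPrimary_H1_subQuot_eq_zero hidx h31 h32 (h.res N) b
      ⟨j, by rw [← hj]; exact card_smul_eq_zero_one _ b⟩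
    rw [ha, hb]
  exact ModuleCat.isZero_of_subsingleton _

/-- (4) for the module `A` itself: `H¹(N, A) = 0` for every `p`-subgroup `N ≤ G`. -/
theorem isZero_H1_res_pGroup (N : Subgroup G) (hN : IsPGroup p N) :
    Limits.IsZero (groupCohomology (Rep.res N.subtype A) 1) :=
  isZero_H1_res_pGroup_subQuot hidx h31 h32 ⟨SubQuotData.self A⟩ N hN

/-- (1) in the weak form `hH1Z` for `A` itself and ANY `Z ≤ G`. -/
theorem exists_coprime_nsmul_cob_res (Z : Subgroup G) :
    ∃ m' : ℕ, Nat.Coprime m' p ∧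
      ∀ f : Z → A, (∀ z w : Z, f (z * w) = A.ρ (z : G) (f w) + f z) →
        ∃ y : A, ∀ z : Z, m' • f z = A.ρ (z : G) y - y :=
  exists_coprime_nsmul_cob_subQuot hidx h31 h32 ⟨SubQuotData.self A⟩ Z

end

section Descent

/-- **Descent of a vanishing invariant along an index prime to `p`** (the alternative to the
adapters above: prove reciprocity over `K₀ = ℚ(ζ_p)` and descend to `ℚ` by the degree formula
`invJ₀ ∘ res = d • invJ`, `d = [K₀:ℚ] ∣ p - 1`). -/
theorem eq_zero_of_degree_formula {Y Y₀ T : Type*} [AddCommGroup Y] [AddCommGroup Y₀]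
    [AddCommGroup T] {p d : ℕ} (hp : p.Prime) (hd : ¬ p ∣ d) (res : Y →+ Y₀) (invJ : Y →+ T)
    (invJ₀ : Y₀ →+ T) (hdeg : ∀ y, invJ₀ (res y) = d • invJ y) (y : Y) {j : ℕ}
    (hy : p ^ j • y = 0) (h0 : invJ₀ (res y) = 0) : invJ y = 0 := by
  refine eq_zero_of_coprime_nsmul (invJ y)
    (Nat.Coprime.pow_left j ((Nat.Prime.coprime_iff_not_dvd hp).2 hd)) ?_ ?_
  · rw [← map_nsmul, hy, map_zero]
  · rw [← hdeg, h0]

end Descent

end Fermat.Agent.S55.Adapt12.AllLayersH1
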